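/-
S48 (Deligne–Serre), block RANKIN: multiplicativity of the coefficients prime to the level,
from the Hecke relations in the shape of the S48 hypothesis `hT`.
-/
import Mathlib

set_option autoImplicit false

namespace Fermat.Agent.S48.Rankin

section

variable {N : ℕ} {a : ℕ → ℂ} {e : ℕ → ℂ}

/-- The Hecke relations in the shape of S48. -/
def HeckeRel (N : ℕ) (a : ℕ → ℂ) (e : ℕ → ℂ) : Prop :=
  ∀ p : ℕ, p.Prime → ¬ p ∣ N → ∀ n : ℕ,
    a (p * n) + e p * (if p ∣ n then a (n / p) else 0) = a p * a n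

lemma HeckeRel.rec_mul (hT : HeckeRel N a e) {p : ℕ} (hp : p.Prime) (hpN : ¬ p ∣ N) (k m : ℕ) :
    a (p ^ (k + 2) * m) = a p * a (p ^ (k + 1) * m) - e p * a (p ^ k * m) := by
  have h := hT p hp hpN (p ^ (k + 1) * m)
  have hd : p ∣ p ^ (k + 1) * m := Dvd.dvd.mul_right (dvd_pow_self p (Nat.succ_ne_zero k)) m
  rw [if_pos hd] at h
  have e1 : p * (p ^ (k + 1) * m) = p ^ (k + 2) * m := by ring
  have e2 : p ^ (k + 1) * m / p = p ^ k * m := by
    rw [pow_succ, mul_comm (p ^ k) p, mul_assoc]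
    exact Nat.mul_div_cancel_left _ hp.pos
  rw [e1, e2] at h
  rw [← h]; ring

lemma HeckeRel.rec (hT : HeckeRel N a e) {p : ℕ} (hp : p.Prime) (hpN : ¬ p ∣ N) (k : ℕ) :
    a (p ^ (k + 2)) = a p * a (p ^ (k + 1)) - e p * a (p ^ k) := by
  simpa using hT.rec_mul hp hpN k 1

lemma HeckeRel.prime_pow_mul (hT : HeckeRel N a e) (h1 : a 1 = 1) {p : ℕ} (hp : p.Prime)
    (hpN : ¬ p ∣ N) {m : ℕ} (hm : ¬ p ∣ m) :
    ∀ k : ℕ, a (p ^ k * m) = a (p ^ k) * a m
  | 0 => by simp [h1]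
  | 1 => by
      have h := hT p hp hpN m
      rw [if_neg hm] at h
      simpa using h
  | (k + 2) => by
      rw [hT.rec_mul hp hpN, hT.rec hp hpN, hT.prime_pow_mul h1 hp hpN hm k,
        hT.prime_pow_mul h1 hp hpN hm (k + 1)]
      ring

/-- multiplicativity: `m` prime to the level and to `n`. -/
theorem HeckeRel.mul (hT : HeckeRel N a e) (h1 : a 1 = 1) (m : ℕ) :
    m.Coprime N → ∀ n : ℕ, m.Coprime n → a (m * n) = a m * a n := by
  induction m using Nat.recOnPosPrimePosCoprime with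
  | prime_pow p k hp hk =>
      intro hN n hn
      have hpN : ¬ p ∣ N := by
        intro h
        have := Nat.Coprime.coprime_dvd_left (dvd_pow_self p hk.ne') hN
        exact hp.one_lt.ne' (Nat.Coprime.eq_one_of_dvd this h)
      have hpn : ¬ p ∣ n := by
        intro h
        have := Nat.Coprime.coprime_dvd_left (dvd_pow_self p hk.ne') hn
        exact hp.one_lt.ne' (Nat.Coprime.eq_one_of_dvd this h)
      exact hT.prime_pow_mul h1 hp hpN hpn k
  | zero =>
      intro _ n hn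
      have : n = 1 := by simpa using hn
      subst this
      simp [h1]
  | one => intro _ n _; simp [h1]
  | coprime m₁ m₂ _ _ hc ih₁ ih₂ =>
      intro hN n hn
      have hN1 : m₁.Coprime N := Nat.Coprime.coprime_dvd_left (Dvd.intro _ rfl) hN
      have hN2 : m₂.Coprime N := Nat.Coprime.coprime_dvd_left (Dvd.intro_left _ rfl) hN
      have hn1 : m₁.Coprime n := Nat.Coprime.coprime_dvd_left (Dvd.intro _ rfl) hn
      have hn2 : m₂.Coprime n := Nat.Coprime.coprime_dvd_left (Dvd.intro_left _ rfl) hn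
      rw [mul_assoc, ih₁ hN1 (m₂ * n) (Nat.Coprime.mul_right hc hn1), ih₂ hN2 n hn2,
        ih₁ hN1 m₂ hc]
      ring

/-- `bb N a n = ‖a n‖²` for `n` prime to `N`, `0` otherwise. -/
noncomputable def bb (N : ℕ) (a : ℕ → ℂ) (n : ℕ) : ℝ := if n.Coprime N then ‖a n‖ ^ 2 else 0

lemma bb_nonneg (n : ℕ) : 0 ≤ bb N a n := by
  unfold bb; split_ifs <;> positivity

lemma bb_le (n : ℕ) : bb N a n ≤ ‖a n‖ ^ 2 := by
  unfold bb; split_ifs
  · exact le_rfl
  · positivity

lemma bb_one (h1 : a 1 = 1) : bb N a 1 = 1 := by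
  simp [bb, h1]

lemma bb_prime_pow {p : ℕ} (hp : p.Prime) (hpN : ¬ p ∣ N) (k : ℕ) :
    bb N a (p ^ k) = ‖a (p ^ k)‖ ^ 2 := by
  unfold bb
  rw [if_pos]
  exact Nat.Coprime.pow_left k ((Nat.Prime.coprime_iff_not_dvd hp).2 hpN)

theorem bb_mul (hT : HeckeRel N a e) (h1 : a 1 = 1) {m n : ℕ} (h : m.Coprime n) :
    bb N a (m * n) = bb N a m * bb N a n := by
  unfold bb
  by_cases hm : m.Coprime N
  · by_cases hn : n.Coprime N
    · rw [if_pos hm, if_pos hn, if_pos (Nat.Coprime.mul_left hm hn), hT.mul h1 m hm n h, norm_mul]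
      ring
    · rw [if_neg hn, if_neg, mul_zero]
      intro h'
      exact hn (Nat.Coprime.coprime_dvd_left (Dvd.intro_left _ rfl) h')
  · rw [if_neg hm, if_neg, zero_mul]
    intro h'
    exact hm (Nat.Coprime.coprime_dvd_left (Dvd.intro _ rfl) h')

end

end Fermat.Agent.S48.Rankin
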