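/-
S48 (Deligne–Serre), block RANKIN: if `∑_{n ≤ M} b n ≤ C M` (`b ≥ 0`) then
`∑ b n n^(-s) ≤ 4 C / (s - 1)` for `1 < s ≤ 2` (dyadic decomposition).
-/
import Mathlib

set_option autoImplicit false

namespace Fermat.Agent.S48.Rankin

section

variable {b : ℕ → ℝ} {C s : ℝ}

lemma dyadic_block (hb : ∀ n, 0 ≤ b n)
    (hsum : ∀ M : ℕ, 0 < M → ∑ n ∈ Finset.range (M + 1), b n ≤ C * M) (hs : 0 ≤ s) (K : ℕ) :
    ∑ n ∈ Finset.Ico (2 ^ K) (2 ^ (K + 1)), b n * (n : ℝ) ^ (-s)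
      ≤ 2 * C * ((2 : ℝ) ^ (1 - s)) ^ K := by
  have h2K : (0 : ℝ) < (2 : ℝ) ^ K := by positivity
  have h1 : ∑ n ∈ Finset.Ico (2 ^ K) (2 ^ (K + 1)), b n * (n : ℝ) ^ (-s)
      ≤ ∑ n ∈ Finset.Ico (2 ^ K) (2 ^ (K + 1)), b n * ((2 : ℝ) ^ K) ^ (-s) := by
    apply Finset.sum_le_sum
    intro n hn
    apply mul_le_mul_of_nonneg_left _ (hb n)
    have hn' : (2 : ℝ) ^ K ≤ n := by
      have := (Finset.mem_Ico.1 hn).1
      exact_mod_cast this
    exact Real.rpow_le_rpow_of_nonpos h2K hn' (by linarith)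
  refine h1.trans ?_
  rw [← Finset.sum_mul]
  have h3 : ∑ n ∈ Finset.Ico (2 ^ K) (2 ^ (K + 1)), b n ≤ C * ((2 : ℝ) ^ (K + 1)) := by
    have := hsum (2 ^ (K + 1)) (by positivity)
    push_cast at this
    refine le_trans ?_ this
    apply Finset.sum_le_sum_of_subset_of_nonneg
    · intro x hx
      have := (Finset.mem_Ico.1 hx).2
      exact Finset.mem_range.2 (by omega)
    · intro i _ _; exact hb i
  have h4 : (0 : ℝ) ≤ ((2 : ℝ) ^ K) ^ (-s) := by positivity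
  refine (mul_le_mul_of_nonneg_right h3 h4).trans (le_of_eq ?_)
  have h5 : ((2 : ℝ) ^ (1 - s)) ^ K = (2 : ℝ) ^ K * ((2 : ℝ) ^ K) ^ (-s) := by
    rw [← Real.rpow_natCast ((2 : ℝ) ^ (1 - s)) K, ← Real.rpow_mul (by norm_num),
      ← Real.rpow_natCast 2 K, ← Real.rpow_mul (by norm_num), ← Real.rpow_add (by norm_num)]
    congr 1; ring
  rw [h5, pow_succ]; ring

lemma dyadic_sum (hb : ∀ n, 0 ≤ b n)
    (hsum : ∀ M : ℕ, 0 < M → ∑ n ∈ Finset.range (M + 1), b n ≤ C * M) (hs : 0 < s) (K : ℕ) :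
    ∑ n ∈ Finset.range (2 ^ K), b n * (n : ℝ) ^ (-s)
      ≤ 2 * C * ∑ k ∈ Finset.range K, ((2 : ℝ) ^ (1 - s)) ^ k := by
  induction K with
  | zero =>
      simp [Real.zero_rpow (neg_ne_zero.2 hs.ne')]
  | succ K ih =>
      rw [Finset.sum_range_succ, mul_add, Finset.range_eq_Ico,
        ← Finset.sum_Ico_consecutive _ (Nat.zero_le (2 ^ K))
          (Nat.pow_le_pow_right (by norm_num) (Nat.le_succ K)), ← Finset.range_eq_Ico]
      exact add_le_add ih (dyadic_block hb hsum hs.le K)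

lemma one_sub_two_rpow_ge (hs : 1 < s) (hs2 : s ≤ 2) : (s - 1) / 2 ≤ 1 - (2 : ℝ) ^ (1 - s) := by
  have h := rpow_one_add_le_one_add_mul_self (s := -(1 / 2)) (p := s - 1) (by norm_num)
    (by linarith) (by linarith)
  have e : (2 : ℝ) ^ (1 - s) = (1 + -(1 / 2) : ℝ) ^ (s - 1) := by
    have : (1 + -(1 / 2) : ℝ) = 2⁻¹ := by norm_num
    rw [this, Real.inv_rpow (by norm_num), ← Real.rpow_neg (by norm_num)]
    congr 1; ring
  rw [e]
  linarith

theorem sum_range_rpow_le (hb : ∀ n, 0 ≤ b n) (hC : 0 ≤ C)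
    (hsum : ∀ M : ℕ, 0 < M → ∑ n ∈ Finset.range (M + 1), b n ≤ C * M)
    (hs : 1 < s) (hs2 : s ≤ 2) (n : ℕ) :
    ∑ i ∈ Finset.range n, b i * (i : ℝ) ^ (-s) ≤ 4 * C / (s - 1) := by
  have h1 : ∑ i ∈ Finset.range n, b i * (i : ℝ) ^ (-s)
      ≤ ∑ i ∈ Finset.range (2 ^ n), b i * (i : ℝ) ^ (-s) := by
    apply Finset.sum_le_sum_of_subset_of_nonneg
    · intro x hx
      have := Finset.mem_range.1 hx
      exact Finset.mem_range.2 (this.trans Nat.lt_two_pow_self)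
    · intro i _ _
      exact mul_nonneg (hb i) (by positivity)
  refine h1.trans ((dyadic_sum hb hsum (by linarith) n).trans ?_)
  set r : ℝ := (2 : ℝ) ^ (1 - s) with hr
  have hr0 : 0 ≤ r := by positivity
  have hr1 := one_sub_two_rpow_ge hs hs2
  rw [← hr] at hr1
  have hs1 : 0 < s - 1 := by linarith
  have hr1' : r < 1 := by linarith
  have h2 : ∑ k ∈ Finset.range n, r ^ k ≤ (1 - r)⁻¹ := by
    have := (summable_geometric_of_lt_one hr0 hr1').sum_le_tsum (Finset.range n)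
      (fun i _ => pow_nonneg hr0 i)
    rwa [tsum_geometric_of_lt_one hr0 hr1'] at this
  have h3 : (1 - r)⁻¹ ≤ 2 / (s - 1) := by
    rw [inv_le_comm₀ (by linarith) (by positivity), inv_div]
    exact hr1
  calc 2 * C * ∑ k ∈ Finset.range n, r ^ k ≤ 2 * C * (2 / (s - 1)) :=
        mul_le_mul_of_nonneg_left (h2.trans h3) (by positivity)
    _ = 4 * C / (s - 1) := by ring

theorem summable_mul_rpow (hb : ∀ n, 0 ≤ b n) (hC : 0 ≤ C)
    (hsum : ∀ M : ℕ, 0 < M → ∑ n ∈ Finset.range (M + 1), b n ≤ C * M)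
    (hs : 1 < s) (hs2 : s ≤ 2) : Summable fun n : ℕ => b n * (n : ℝ) ^ (-s) :=
  summable_of_sum_range_le (fun n => mul_nonneg (hb n) (by positivity))
    (sum_range_rpow_le hb hC hsum hs hs2)

theorem tsum_mul_rpow_le (hb : ∀ n, 0 ≤ b n) (hC : 0 ≤ C)
    (hsum : ∀ M : ℕ, 0 < M → ∑ n ∈ Finset.range (M + 1), b n ≤ C * M)
    (hs : 1 < s) (hs2 : s ≤ 2) : ∑' n : ℕ, b n * (n : ℝ) ^ (-s) ≤ 4 * C / (s - 1) :=
  Real.tsum_le_of_sum_range_le (fun n => mul_nonneg (hb n) (by positivity))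
    (sum_range_rpow_le hb hC hsum hs hs2)

end

end Fermat.Agent.S48.Rankin
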