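/-
S48 (Deligne–Serre), block RANKIN, local part.

For a sequence `a 0 = 1, a 1 = s, a (k+2) = s a (k+1) - e a k` with `‖e‖ = 1` we show
`exp (‖s‖² X) (1 - X²) ≤ ∑ ‖a k‖² X^k`.  (Root-free version of Rankin's local factor.)
-/
import Mathlib

set_option autoImplicit false

namespace Fermat.Agent.S48.Rankin

/-- `hh u k = u k + u (k-2) + u (k-4) + ...`. -/
def hh (u : ℕ → ℝ) : ℕ → ℝ
  | 0 => u 0
  | 1 => u 1
  | (k + 2) => u (k + 2) + hh u k

lemma hh_nonneg {u : ℕ → ℝ} (hu : ∀ k, 0 ≤ u k) : ∀ k, 0 ≤ hh u k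
  | 0 => hu 0
  | 1 => hu 1
  | (k + 2) => by
      rw [hh]
      exact add_nonneg (hu _) (hh_nonneg hu k)

section abstract

variable {u : ℕ → ℝ} {c : ℝ}

/-- The key inequality, abstract form. -/
lemma key_aux (hu : ∀ k, 0 ≤ u k) (h0 : c * u 0 = u 1)
    (hstep : ∀ m, c * u (m + 1) ≤ 2 * u (m + 2) + 2 * u m) :
    ∀ k, c * hh u (k + 1) ≤ 2 * u (k + 2) + 4 * hh u k
  | 0 => by
      have := hstep 0
      have h := hu 0
      simp only [hh]
      simp only [zero_add] at this ⊢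
      linarith
  | 1 => by
      have := hstep 1
      have h := hu 1
      simp only [hh]
      simp only [Nat.reduceAdd] at this ⊢
      nlinarith
  | (k + 2) => by
      have := hstep (k + 2)
      have ih := key_aux hu h0 hstep k
      have e1 : hh u (k + 2 + 1) = u (k + 3) + hh u (k + 1) := by
        show hh u (k + 1 + 2) = _
        rw [hh]
      have e2 : hh u (k + 2) = u (k + 2) + hh u k := by rw [hh]
      rw [e1, e2]
      have e3 : k + 2 + 1 = k + 3 := rfl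
      have e4 : k + 2 + 2 = k + 4 := rfl
      rw [e3, e4] at this
      rw [e4]
      nlinarith

lemma key_step (hu : ∀ k, 0 ≤ u k) (h0 : c * u 0 = u 1)
    (hstep : ∀ m, c * u (m + 1) ≤ 2 * u (m + 2) + 2 * u m) (k : ℕ) :
    c * hh u k ≤ (k + 1 : ℝ) * hh u (k + 1) := by
  match k with
  | 0 =>
      simp only [hh]
      simp [h0]
  | 1 =>
      have := hstep 0
      simp only [hh]
      simp only [zero_add] at this
      push_cast
      linarith
  | 2 =>
      have := hstep 1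
      have h := hu 3
      simp only [hh]
      simp only [Nat.reduceAdd] at this
      push_cast
      nlinarith
  | (k + 3) =>
      have h1 := key_aux hu h0 hstep (k + 2)
      have e1 : hh u (k + 3 + 1) = u (k + 4) + hh u (k + 2) := by
        show hh u (k + 2 + 2) = _
        rw [hh]
      have e4 : k + 2 + 2 = k + 4 := rfl
      have e3 : k + 2 + 1 = k + 3 := rfl
      rw [e3, e4] at h1
      rw [e1]
      have h2 := hu (k + 4)
      have h3 := hh_nonneg hu (k + 2)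
      have hk : (0 : ℝ) ≤ k := Nat.cast_nonneg k
      push_cast
      nlinarith [mul_nonneg hk h2, mul_nonneg hk h3]

lemma pow_le_factorial_mul_hh (hu : ∀ k, 0 ≤ u k) (hc : 0 ≤ c) (h00 : u 0 = 1)
    (h0 : c * u 0 = u 1)
    (hstep : ∀ m, c * u (m + 1) ≤ 2 * u (m + 2) + 2 * u m) (k : ℕ) :
    c ^ k ≤ (k.factorial : ℝ) * hh u k := by
  induction k with
  | zero => simp [hh, h00]
  | succ k ih =>
      have h1 := key_step hu h0 hstep k
      have hf : (0 : ℝ) ≤ (k.factorial : ℝ) := Nat.cast_nonneg _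
      calc c ^ (k + 1) = c * c ^ k := by ring
        _ ≤ c * ((k.factorial : ℝ) * hh u k) := mul_le_mul_of_nonneg_left ih hc
        _ = (k.factorial : ℝ) * (c * hh u k) := by ring
        _ ≤ (k.factorial : ℝ) * ((k + 1 : ℝ) * hh u (k + 1)) :=
            mul_le_mul_of_nonneg_left h1 hf
        _ = ((k + 1).factorial : ℝ) * hh u (k + 1) := by
            rw [Nat.factorial_succ]; push_cast; ring

/-- partial sums of `hh u k X^k`. -/
lemma sum_hh_succ_succ (X : ℝ) (n : ℕ) :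
    ∑ k ∈ Finset.range (n + 2), hh u k * X ^ k =
      ∑ k ∈ Finset.range (n + 2), u k * X ^ k + X ^ 2 * ∑ k ∈ Finset.range n, hh u k * X ^ k := by
  induction n with
  | zero => simp [Finset.sum_range_succ, hh]
  | succ n ih =>
      rw [Finset.sum_range_succ, ih, Finset.sum_range_succ _ (n + 2), Finset.sum_range_succ _ n]
      rw [hh]
      ring

lemma sum_hh_le (hu : ∀ k, 0 ≤ u k) {X : ℝ} (hX : 0 ≤ X)
    (hs : Summable fun k => u k * X ^ k) (n : ℕ) :
    (1 - X ^ 2) * ∑ k ∈ Finset.range n, hh u k * X ^ k ≤ ∑' k, u k * X ^ k := by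
  have h1 := sum_hh_succ_succ (u := u) X n
  have h2 : ∑ k ∈ Finset.range n, hh u k * X ^ k ≤ ∑ k ∈ Finset.range (n + 2), hh u k * X ^ k := by
    apply Finset.sum_le_sum_of_subset_of_nonneg
    · intro x hx
      simp only [Finset.mem_range] at hx ⊢
      omega
    · intro i _ _
      exact mul_nonneg (hh_nonneg hu i) (pow_nonneg hX i)
  have h3 : ∑ k ∈ Finset.range (n + 2), u k * X ^ k ≤ ∑' k, u k * X ^ k :=
    hs.sum_le_tsum _ (fun i _ => mul_nonneg (hu i) (pow_nonneg hX i))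
  nlinarith

theorem exp_mul_le_abstract (hu : ∀ k, 0 ≤ u k) (hc : 0 ≤ c) (h00 : u 0 = 1)
    (h0 : c * u 0 = u 1)
    (hstep : ∀ m, c * u (m + 1) ≤ 2 * u (m + 2) + 2 * u m)
    {X : ℝ} (hX : 0 ≤ X) (hX1 : X < 1) (hs : Summable fun k => u k * X ^ k) :
    Real.exp (c * X) * (1 - X ^ 2) ≤ ∑' k, u k * X ^ k := by
  have hpos : 0 ≤ 1 - X ^ 2 := by nlinarith
  have hexp : HasSum (fun k : ℕ => (c * X) ^ k / (k.factorial : ℝ)) (Real.exp (c * X)) := by
    rw [Real.exp_eq_exp_ℝ]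
    exact NormedSpace.expSeries_div_hasSum_exp (c * X)
  have hlim := (hexp.tendsto_sum_nat).mul_const (1 - X ^ 2)
  refine le_of_tendsto' hlim (fun n => ?_)
  refine le_trans ?_ (sum_hh_le hu hX hs n)
  rw [mul_comm]
  apply mul_le_mul_of_nonneg_left _ hpos
  apply Finset.sum_le_sum
  intro k _
  have h1 := pow_le_factorial_mul_hh hu hc h00 h0 hstep k
  have hf : (0 : ℝ) < (k.factorial : ℝ) := by exact_mod_cast k.factorial_pos
  rw [mul_pow, div_le_iff₀ hf]
  have := mul_le_mul_of_nonneg_right h1 (pow_nonneg hX k)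
  nlinarith

end abstract

/-- **Local Rankin inequality.** -/
theorem exp_mul_le {a : ℕ → ℂ} {s e : ℂ} (h0 : a 0 = 1) (h1 : a 1 = s)
    (hrec : ∀ k, a (k + 2) = s * a (k + 1) - e * a k) (he : ‖e‖ = 1)
    {X : ℝ} (hX : 0 ≤ X) (hX1 : X < 1) (hs : Summable fun k => ‖a k‖ ^ 2 * X ^ k) :
    Real.exp (‖s‖ ^ 2 * X) * (1 - X ^ 2) ≤ ∑' k, ‖a k‖ ^ 2 * X ^ k := by
  apply exp_mul_le_abstract (u := fun k => ‖a k‖ ^ 2) (c := ‖s‖ ^ 2)
    (fun k => by positivity) (by positivity) (by simp [h0]) (by simp [h0, h1]) _ hX hX1 hs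
  intro m
  have h : s * a (m + 1) = a (m + 2) + e * a m := by rw [hrec]; ring
  have h2 : ‖s‖ * ‖a (m + 1)‖ ≤ ‖a (m + 2)‖ + ‖a m‖ := by
    rw [← norm_mul, h]
    refine (norm_add_le _ _).trans ?_
    rw [norm_mul, he, one_mul]
  have h3 : 0 ≤ ‖s‖ * ‖a (m + 1)‖ := by positivity
  show ‖s‖ ^ 2 * ‖a (m + 1)‖ ^ 2 ≤ 2 * ‖a (m + 2)‖ ^ 2 + 2 * ‖a m‖ ^ 2
  have h4 : (‖s‖ * ‖a (m + 1)‖) ^ 2 ≤ (‖a (m + 2)‖ + ‖a m‖) ^ 2 := by
    apply pow_le_pow_left₀ h3 h2
  nlinarith [sq_nonneg (‖a (m + 2)‖ - ‖a m‖)]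

end Fermat.Agent.S48.Rankin
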