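/-
S48 (Deligne–Serre), block RANKIN: `∑_{n ≤ M} ‖a_n‖² = O(M^k)` for a cusp form of weight `k`
(Parseval on a horizontal line + `‖f‖ y^(k/2)` bounded).
-/
import Mathlib

set_option autoImplicit false

open UpperHalfPlane ModularFormClass MeasureTheory

namespace Fermat.Agent.S48.Rankin

section

variable {k : ℤ} {Γ : Subgroup (GL (Fin 2) ℝ)} {F : Type*} [FunLike F ℍ ℂ]

/-- the restriction of `f` to the horizontal line of height `t`. -/
noncomputable def lineFn (f : F) (t : ℝ) (ht : 0 < t) (x : ℝ) : ℂ :=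
  f ⟨(x : ℂ) + t * Complex.I, by simpa using ht⟩

lemma continuous_lineFn [ModularFormClass F Γ k] (f : F) (t : ℝ) (ht : 0 < t) :
    Continuous (lineFn f t ht) := by
  have h1 : Continuous (f : ℍ → ℂ) := (ModularFormClass.holo f).continuous
  have h2 : Continuous fun x : ℝ => (⟨(x : ℂ) + t * Complex.I, by simpa using ht⟩ : ℍ) := by
    rw [UpperHalfPlane.isEmbedding_coe.continuous_iff]
    show Continuous fun x : ℝ => (x : ℂ) + t * Complex.I
    fun_prop
  exact h1.comp h2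

lemma fourierCoeffOn_lineFn [ModularFormClass F Γ k] (f : F) (hΓ : (1 : ℝ) ∈ Γ.strictPeriods)
    (t : ℝ) (ht : 0 < t) (n : ℕ) :
    (qExpansion 1 f).coeff n =
      Complex.exp (2 * Real.pi * n * t) * fourierCoeffOn zero_lt_one (lineFn f t ht) n := by
  rw [ModularFormClass.qExpansion_coeff_eq_intervalIntegral f zero_lt_one hΓ n ht,
    fourierCoeffOn_eq_integral]
  simp only [sub_zero, Complex.ofReal_one, div_one, one_mul, one_smul]
  rw [← intervalIntegral.integral_const_mul]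
  congr 1
  ext u
  rw [fourier_coe_apply, lineFn, smul_eq_mul, ← mul_assoc]
  congr 1
  rw [Function.Periodic.qParam, ← Complex.exp_nat_mul, one_div, ← Complex.exp_neg,
    ← Complex.exp_add]
  congr 1
  push_cast
  have := Complex.I_sq
  simp only [sub_zero, div_one]
  linear_combination (-2 * Real.pi * n * t : ℂ) * this

/-- Bessel/Parseval on the line of height `t`. -/
lemma sum_norm_sq_mul_exp_le [ModularFormClass F Γ k] (f : F) (hΓ : (1 : ℝ) ∈ Γ.strictPeriods)
    (t : ℝ) (ht : 0 < t) (B : ℝ) (hB : ∀ x, ‖lineFn f t ht x‖ ≤ B) (M : ℕ) :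
    ∑ n ∈ Finset.range M, ‖(qExpansion 1 f).coeff n‖ ^ 2 * Real.exp (-(4 * Real.pi * n * t))
      ≤ B ^ 2 := by
  have hB0 : 0 ≤ B := (norm_nonneg _).trans (hB 0)
  have hL2 : MemLp (lineFn f t ht) 2 (volume.restrict (Set.Ioc (0 : ℝ) 1)) :=
    MemLp.of_bound (continuous_lineFn f t ht).aestronglyMeasurable B
      (Filter.Eventually.of_forall hB)
  have hsum := hasSum_sq_fourierCoeffOn zero_lt_one hL2
  have h1 : ∑ n ∈ Finset.range M, ‖(qExpansion 1 f).coeff n‖ ^ 2
        * Real.exp (-(4 * Real.pi * n * t))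
      = ∑ i ∈ (Finset.range M).map ⟨fun n : ℕ => (n : ℤ), Nat.cast_injective⟩,
          ‖fourierCoeffOn zero_lt_one (lineFn f t ht) i‖ ^ 2 := by
    rw [Finset.sum_map]
    apply Finset.sum_congr rfl
    intro n _
    simp only [Function.Embedding.coeFn_mk]
    rw [fourierCoeffOn_lineFn f hΓ t ht n, norm_mul, Complex.norm_exp, mul_pow, ← Real.exp_nat_mul,
      mul_right_comm, ← Real.exp_add]
    have : ((2 : ℕ) : ℝ) * (2 * (Real.pi : ℂ) * n * t).re + -(4 * Real.pi * n * t) = 0 := by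
      have : (2 * (Real.pi : ℂ) * n * t) = ((2 * Real.pi * n * t : ℝ) : ℂ) := by push_cast; ring
      rw [this, Complex.ofReal_re]
      push_cast; ring
    rw [this, Real.exp_zero, one_mul]
  rw [h1]
  refine (hsum.summable.sum_le_tsum _ (fun i _ => by positivity)).trans ?_
  rw [hsum.tsum_eq]
  simp only [sub_zero, inv_one, one_smul]
  have h2 : ∫ x in (0 : ℝ)..1, ‖lineFn f t ht x‖ ^ 2 ≤ ∫ _x in (0 : ℝ)..1, B ^ 2 := by
    apply intervalIntegral.integral_mono_on zero_le_one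
    · exact ((continuous_lineFn f t ht).norm.pow 2).intervalIntegrable _ _
    · exact continuous_const.intervalIntegrable _ _
    · intro x _
      exact pow_le_pow_left₀ (norm_nonneg _) (hB x) 2
  simpa using h2

/-- **Rankin–Hecke mean square bound.** -/
theorem exists_sum_norm_sq_le [Γ.IsArithmetic] [CuspFormClass F Γ k] (f : F)
    (hΓ : (1 : ℝ) ∈ Γ.strictPeriods) :
    ∃ C : ℝ, 0 ≤ C ∧ ∀ M : ℕ, 0 < M →
      ∑ n ∈ Finset.range (M + 1), ‖(qExpansion 1 f).coeff n‖ ^ 2 ≤ C * (M : ℝ) ^ (k : ℝ) := by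
  obtain ⟨C, hC⟩ := CuspFormClass.exists_bound f
  refine ⟨Real.exp (4 * Real.pi) * C ^ 2, by positivity, fun M hM => ?_⟩
  have hM' : (0 : ℝ) < M := by exact_mod_cast hM
  have ht : (0 : ℝ) < 1 / M := by positivity
  have hB : ∀ x, ‖lineFn f (1 / M) ht x‖ ≤ C / (1 / (M : ℝ)) ^ ((k : ℝ) / 2) := by
    intro x
    have := hC ⟨(x : ℂ) + ((1 / M : ℝ) : ℂ) * Complex.I, by simpa using hM⟩
    have him : (⟨(x : ℂ) + ((1 / M : ℝ) : ℂ) * Complex.I, by simpa using hM⟩ : ℍ).im = 1 / M := by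
      show ((x : ℂ) + ((1 / M : ℝ) : ℂ) * Complex.I).im = 1 / M
      simp
    rw [him] at this
    exact this
  have h1 := sum_norm_sq_mul_exp_le f hΓ (1 / M) ht _ hB (M + 1)
  have h2 : (C / (1 / (M : ℝ)) ^ ((k : ℝ) / 2)) ^ 2 = C ^ 2 * (M : ℝ) ^ (k : ℝ) := by
    have e1 : ((1 / (M : ℝ)) ^ ((k : ℝ) / 2)) ^ 2 = ((M : ℝ) ^ (k : ℝ))⁻¹ := by
      rw [← Real.rpow_natCast _ 2, ← Real.rpow_mul ht.le, one_div, Real.inv_rpow hM'.le]
      have : (k : ℝ) / 2 * ((2 : ℕ) : ℝ) = k := by push_cast; ring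
      rw [this]
    rw [div_pow, e1, div_eq_mul_inv, inv_inv]
  rw [h2] at h1
  have h3 : Real.exp (-(4 * Real.pi)) * ∑ n ∈ Finset.range (M + 1), ‖(qExpansion 1 f).coeff n‖ ^ 2
      ≤ ∑ n ∈ Finset.range (M + 1), ‖(qExpansion 1 f).coeff n‖ ^ 2
        * Real.exp (-(4 * Real.pi * n * (1 / M))) := by
    rw [Finset.mul_sum]
    apply Finset.sum_le_sum
    intro n hn
    rw [mul_comm]
    apply mul_le_mul_of_nonneg_left _ (by positivity)
    apply Real.exp_le_exp.2
    have hn' : (n : ℝ) ≤ M := by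
      have := Finset.mem_range.1 hn
      exact_mod_cast Nat.lt_succ_iff.1 this
    have : (n : ℝ) * (1 / M) ≤ 1 := by
      rw [mul_one_div, div_le_one hM']; exact hn'
    have hpi := Real.pi_pos
    nlinarith
  have h4 := h3.trans h1
  have h5 : Real.exp (4 * Real.pi) * Real.exp (-(4 * Real.pi)) = 1 := by
    rw [← Real.exp_add]; simp
  calc ∑ n ∈ Finset.range (M + 1), ‖(qExpansion 1 f).coeff n‖ ^ 2
      = Real.exp (4 * Real.pi) * (Real.exp (-(4 * Real.pi)) *
          ∑ n ∈ Finset.range (M + 1), ‖(qExpansion 1 f).coeff n‖ ^ 2) := by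
        rw [← mul_assoc, h5, one_mul]
    _ ≤ Real.exp (4 * Real.pi) * (C ^ 2 * (M : ℝ) ^ (k : ℝ)) :=
        mul_le_mul_of_nonneg_left h4 (by positivity)
    _ = _ := by ring

end

end Fermat.Agent.S48.Rankin
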