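/-
S48 (Deligne–Serre), block RANKIN, main theorem:
`∑_{p ∈ S} ‖a_p‖² p^(-s) ≤ log (1/(s-1)) + C` for `1 < s ≤ 2`, uniformly in the finite set `S`
of primes not dividing the level (sharp constant `1` in front of the logarithm).
-/
import Fermat.Prelude.Def_FLTPrelim_Modularity
import Fermat.Agent.S48.Rankin.Local
import Fermat.Agent.S48.Rankin.Mult
import Fermat.Agent.S48.Rankin.Parseval
import Fermat.Agent.S48.Rankin.Dirichlet

set_option autoImplicit false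

open UpperHalfPlane ModularFormClass CongruenceSubgroup

namespace Fermat.Agent.S48.Rankin

section abstract

variable {N : ℕ} {a : ℕ → ℂ} {e : ℕ → ℂ}

/-- the term of the Dirichlet series. -/
noncomputable def term (N : ℕ) (a : ℕ → ℂ) (s : ℝ) (n : ℕ) : ℝ := bb N a n * (n : ℝ) ^ (-s)

lemma term_nonneg (s : ℝ) (n : ℕ) : 0 ≤ term N a s n :=
  mul_nonneg (bb_nonneg n) (by positivity)

lemma term_one (h1 : a 1 = 1) (s : ℝ) : term N a s 1 = 1 := by
  simp [term, bb_one h1]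

lemma term_mul (hT : HeckeRel N a e) (h1 : a 1 = 1) (s : ℝ) {m n : ℕ} (h : m.Coprime n) :
    term N a s (m * n) = term N a s m * term N a s n := by
  unfold term
  rw [bb_mul hT h1 h]
  push_cast
  rw [Real.mul_rpow (Nat.cast_nonneg m) (Nat.cast_nonneg n)]
  ring

lemma term_prime_pow {p : ℕ} (hp : p.Prime) (hpN : ¬ p ∣ N) (s : ℝ) (k : ℕ) :
    term N a s (p ^ k) = ‖a (p ^ k)‖ ^ 2 * ((p : ℝ) ^ (-s)) ^ k := by
  unfold term
  rw [bb_prime_pow hp hpN]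
  congr 1
  push_cast
  rw [← Real.rpow_natCast, ← Real.rpow_natCast, ← Real.rpow_mul (Nat.cast_nonneg p),
    ← Real.rpow_mul (Nat.cast_nonneg p), mul_comm]

lemma inv_one_sub_le_exp {x : ℝ} (h0 : 0 ≤ x) (h1 : x ≤ 1 / 2) :
    1 ≤ Real.exp (2 * x) * (1 - x) := by
  have h := Real.add_one_le_exp (2 * x)
  have h2 : 0 ≤ 1 - x := by linarith
  calc (1 : ℝ) ≤ (2 * x + 1) * (1 - x) := by nlinarith
    _ ≤ _ := mul_le_mul_of_nonneg_right h h2

lemma prime_rpow_le {p : ℕ} (hp : p.Prime) {s : ℝ} (hs : 1 < s) :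
    (p : ℝ) ^ (-s) ≤ 1 / p := by
  have hp1 : (1 : ℝ) ≤ p := by exact_mod_cast hp.one_lt.le
  calc (p : ℝ) ^ (-s) ≤ (p : ℝ) ^ (-1 : ℝ) :=
        Real.rpow_le_rpow_of_exponent_le hp1 (by linarith)
    _ = 1 / p := by rw [Real.rpow_neg_one, one_div]

/-- local inequality in the shape used below. -/
lemma local_le (hT : HeckeRel N a e) (h1 : a 1 = 1) {p : ℕ} (hp : p.Prime) (hpN : ¬ p ∣ N)
    (he : ‖e p‖ = 1) {s : ℝ} (hs : 1 < s) (hsum : Summable (term N a s)) :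
    Real.exp (‖a p‖ ^ 2 * (p : ℝ) ^ (-s) - 2 * (1 / (p : ℝ) ^ 2)) ≤ ∑' k, term N a s (p ^ k) := by
  set X : ℝ := (p : ℝ) ^ (-s) with hX
  have hp2 : (2 : ℝ) ≤ p := by exact_mod_cast hp.two_le
  have hX0 : 0 ≤ X := by positivity
  have hXp : X ≤ 1 / p := prime_rpow_le hp hs
  have hp' : (1 : ℝ) / p ≤ 1 / 2 := one_div_le_one_div_of_le (by norm_num) hp2
  have hX1 : X < 1 := by linarith
  have hs' : Summable fun k => ‖a (p ^ k)‖ ^ 2 * X ^ k := by
    have := hsum.comp_injective (Nat.pow_right_injective hp.two_le)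
    refine this.congr (fun k => ?_)
    simp only [Function.comp]
    rw [term_prime_pow hp hpN]
  have hloc := exp_mul_le (a := fun k => a (p ^ k)) (s := a p) (e := e p) (by simp [h1]) (by simp)
    (fun k => hT.rec hp hpN k) he hX0 hX1 hs'
  have e1 : ∑' k, term N a s (p ^ k) = ∑' k, ‖a (p ^ k)‖ ^ 2 * X ^ k :=
    tsum_congr (fun k => term_prime_pow hp hpN s k)
  rw [e1]
  have hXX : X ^ 2 ≤ 1 / (p : ℝ) ^ 2 := by
    have := pow_le_pow_left₀ hX0 hXp 2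
    rwa [div_pow, one_pow] at this
  have hXX2 : X ^ 2 ≤ 1 / 2 := by nlinarith
  have h3 := inv_one_sub_le_exp (sq_nonneg X) hXX2
  have h4 : Real.exp (2 * X ^ 2) ≤ Real.exp (2 * (1 / (p : ℝ) ^ 2)) :=
    Real.exp_le_exp.2 (by linarith)
  rw [Real.exp_sub, div_le_iff₀ (Real.exp_pos _)]
  have h5 : 0 ≤ 1 - X ^ 2 := by linarith
  have h6 : 0 ≤ ∑' k, ‖a (p ^ k)‖ ^ 2 * X ^ k :=
    tsum_nonneg (fun k => by positivity)
  calc Real.exp (‖a p‖ ^ 2 * X) ≤ Real.exp (‖a p‖ ^ 2 * X) * (Real.exp (2 * X ^ 2) * (1 - X ^ 2)) :=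
        le_mul_of_one_le_right (Real.exp_pos _).le h3
    _ = (Real.exp (‖a p‖ ^ 2 * X) * (1 - X ^ 2)) * Real.exp (2 * X ^ 2) := by ring
    _ ≤ (∑' k, ‖a (p ^ k)‖ ^ 2 * X ^ k) * Real.exp (2 * X ^ 2) :=
        mul_le_mul_of_nonneg_right hloc (Real.exp_pos _).le
    _ ≤ _ := mul_le_mul_of_nonneg_left h4 h6

/-- Euler product inequality. -/
lemma exp_sum_le (hT : HeckeRel N a e) (h1 : a 1 = 1)
    (he : ∀ p : ℕ, p.Prime → ¬ p ∣ N → ‖e p‖ = 1) {s : ℝ} (hs : 1 < s)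
    (hsum : Summable (term N a s)) (S : Finset ℕ) (hS : ∀ p ∈ S, p.Prime ∧ ¬ p ∣ N) :
    Real.exp (∑ p ∈ S, (‖a p‖ ^ 2 * (p : ℝ) ^ (-s) - 2 * (1 / (p : ℝ) ^ 2)))
      ≤ ∑' n, term N a s n := by
  have hE := EulerProduct.summable_and_hasSum_factoredNumbers_prod_filter_prime_tsum
    (f := term N a s) (term_one h1 s) (fun {m n} h => term_mul hT h1 s h)
    (fun {p} hp => by
      have := hsum.comp_injective (Nat.pow_right_injective hp.two_le)
      refine this.congr (fun k => ?_)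
      simp only [Function.comp]
      rw [Real.norm_of_nonneg (term_nonneg s _)]) S
  have hfil : S.filter Nat.Prime = S := Finset.filter_true_of_mem (fun p hp => (hS p hp).1)
  rw [hfil] at hE
  rw [Real.exp_sum]
  calc ∏ p ∈ S, Real.exp (‖a p‖ ^ 2 * (p : ℝ) ^ (-s) - 2 * (1 / (p : ℝ) ^ 2))
      ≤ ∏ p ∈ S, ∑' k, term N a s (p ^ k) :=
        Finset.prod_le_prod (fun p _ => (Real.exp_pos _).le)
          (fun p hp => local_le hT h1 (hS p hp).1 (hS p hp).2 (he p (hS p hp).1 (hS p hp).2) hs hsum)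
    _ = ∑' m : Nat.factoredNumbers S, term N a s m := hE.2.tsum_eq.symm
    _ ≤ _ := Summable.tsum_subtype_le _ _ (term_nonneg s) hsum

/-- **Rankin's bound, abstract form.** -/
theorem rankin_abstract (hT : HeckeRel N a e) (h1 : a 1 = 1)
    (he : ∀ p : ℕ, p.Prime → ¬ p ∣ N → ‖e p‖ = 1) {C : ℝ} (hC : 0 ≤ C)
    (hmean : ∀ M : ℕ, 0 < M → ∑ n ∈ Finset.range (M + 1), ‖a n‖ ^ 2 ≤ C * M) :
    ∃ C' : ℝ, ∀ s : ℝ, 1 < s → s ≤ 2 → ∀ S : Finset ℕ, (∀ p ∈ S, p.Prime ∧ ¬ p ∣ N) →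
      ∑ p ∈ S, ‖a p‖ ^ 2 * (p : ℝ) ^ (-s) ≤ Real.log (1 / (s - 1)) + C' := by
  have hZ : Summable fun n : ℕ => 1 / (n : ℝ) ^ 2 := Real.summable_one_div_nat_pow.2 (by norm_num)
  refine ⟨2 * (∑' n : ℕ, 1 / (n : ℝ) ^ 2) + Real.log (4 * C), fun s hs hs2 S hS => ?_⟩
  have hmean' : ∀ M : ℕ, 0 < M → ∑ n ∈ Finset.range (M + 1), bb N a n ≤ C * M := fun M hM =>
    (Finset.sum_le_sum (fun n _ => bb_le n)).trans (hmean M hM)
  have hsum : Summable (term N a s) := summable_mul_rpow bb_nonneg hC hmean' hs hs2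
  have hD : ∑' n, term N a s n ≤ 4 * C / (s - 1) := tsum_mul_rpow_le bb_nonneg hC hmean' hs hs2
  have h2 := (exp_sum_le hT h1 he hs hsum S hS).trans hD
  have hs1 : 0 < s - 1 := by linarith
  have hpos : 0 < 4 * C / (s - 1) := lt_of_lt_of_le (Real.exp_pos _) h2
  have hC4 : 0 < 4 * C := by
    by_contra h
    have : 4 * C / (s - 1) ≤ 0 := div_nonpos_of_nonpos_of_nonneg (not_lt.1 h) hs1.le
    linarith
  have h3 := (Real.le_log_iff_exp_le hpos).2 h2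
  have h4 : Real.log (4 * C / (s - 1)) = Real.log (1 / (s - 1)) + Real.log (4 * C) := by
    rw [div_eq_mul_one_div, Real.log_mul hC4.ne' (by positivity)]
    ring
  rw [h4, Finset.sum_sub_distrib, ← Finset.mul_sum] at h3
  have h5 : ∑ p ∈ S, 1 / (p : ℝ) ^ 2 ≤ ∑' n : ℕ, 1 / (n : ℝ) ^ 2 :=
    hZ.sum_le_tsum S (fun i _ => by positivity)
  linarith

end abstract

/-- **Rankin's bound for weight one eigenforms** (the contract `StmtRankin` of the S48 plan). -/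
theorem rankin (N : ℕ) [NeZero N] (ε : DirichletCharacter ℂ N) (f : CuspForm (Gamma1 N) 1)
    (hf₁ : ModularFormClass.qCoeff f 1 = 1)
    (hT : ∀ p : ℕ, p.Prime → ¬ p ∣ N → ∀ n : ℕ,
        ModularFormClass.qCoeff f (p * n) +
            ε (p : ZMod N) * (if p ∣ n then ModularFormClass.qCoeff f (n / p) else 0) =
          ModularFormClass.qCoeff f p * ModularFormClass.qCoeff f n) :
    ∃ C : ℝ, ∀ s : ℝ, 1 < s → s ≤ 2 → ∀ S : Finset ℕ, (∀ p ∈ S, p.Prime ∧ ¬ p ∣ N) →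
      ∑ p ∈ S, ‖ModularFormClass.qCoeff f p‖ ^ 2 * (p : ℝ) ^ (-s)
        ≤ Real.log (1 / (s - 1)) + C := by
  have hΓ : (1 : ℝ) ∈ ((Gamma1 N : Subgroup (GL (Fin 2) ℝ))).strictPeriods := by
    rw [strictPeriods_Gamma1]
    exact AddSubgroup.mem_zmultiples 1
  obtain ⟨C, hC, hmean⟩ := exists_sum_norm_sq_le f hΓ
  apply rankin_abstract (N := N) (a := fun n => ModularFormClass.qCoeff f n)
    (e := fun p => ε (p : ZMod N)) hT hf₁ _ hC
  · intro M hM
    have := hmean M hM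
    simpa [ModularFormClass.qCoeff] using this
  · intro p hp hpN
    obtain ⟨u, hu⟩ := (ZMod.isUnit_prime_iff_not_dvd hp).2 hpN
    rw [← hu]
    exact ε.unit_norm_eq_one u

end Fermat.Agent.S48.Rankin
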